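import Mathlib
import Fermat.Prelude.Def_ModularCurve_X0ModL
import Fermat.Prelude.Def_ModularCurve_ArithmeticGalois

/-!
# Descent of coefficients for fields of Laurent series

* `mem_adjoin_of_coeffMap_mem`: `Ω(S) ∩ K((q)) = K(S)` for `S ⊆ K((q))`.
* `laurentBaseChange_adjoin`, `laurentBaseChange_full`: base change of an adjoined field.
-/

set_option autoImplicit false

noncomputable section

open HahnSeries IntermediateField ModularCurve

namespace Fermat.Agent.MFF

variable {K Ω : Type*} [Field K] [Field Ω] [Algebra K Ω]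

/-- coefficient embedding -/
abbrev emb (K Ω : Type*) [Field K] [Field Ω] [Algebra K Ω] : LaurentSeries K →+* LaurentSeries Ω :=
  coeffMap (algebraMap K Ω)

/-- Coefficientwise application of a `K`-linear functional. -/
def coeffLin (φ : Ω →ₗ[K] K) : LaurentSeries Ω →+ LaurentSeries K where
  toFun x := x.map φ
  map_zero' := by ext k; simp
  map_add' x y := by ext k; simp

@[simp] theorem coeffLin_coeff (φ : Ω →ₗ[K] K) (x : LaurentSeries Ω) (k : ℤ) :
    (coeffLin φ x).coeff k = φ (x.coeff k) := rfl

theorem coeffLin_mul_emb (φ : Ω →ₗ[K] K) (x : LaurentSeries Ω) (y : LaurentSeries K) :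
    coeffLin φ (x * emb K Ω y) = coeffLin φ x * y := by
  ext k
  rw [coeffLin_coeff]
  have hs1 : (coeffLin φ x).support ⊆ x.support := by
    intro a ha
    simp only [mem_support, coeffLin_coeff] at ha ⊢
    intro h
    exact ha (by rw [h, map_zero])
  have hs2 : (emb K Ω y).support ⊆ y.support := by
    intro a ha
    simp only [mem_support, coeffMap_coeff] at ha ⊢
    intro h
    exact ha (by rw [h, map_zero])
  rw [HahnSeries.coeff_mul_right' (hs := y.isPWO_support) hs2,
    HahnSeries.coeff_mul_left' (hs := x.isPWO_support) hs1, map_sum]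
  refine Finset.sum_congr rfl fun p _ => ?_
  rw [coeffMap_coeff, coeffLin_coeff]
  have : x.coeff p.1 * algebraMap K Ω (y.coeff p.2) = (y.coeff p.2) • x.coeff p.1 := by
    rw [Algebra.smul_def, mul_comm]
  rw [this, map_smul, smul_eq_mul, mul_comm]

theorem algebraMap_laurent_eq_single' (c : K) :
    algebraMap K (LaurentSeries K) c = HahnSeries.single 0 c := by
  have h1 : algebraMap K (PowerSeries K) c = PowerSeries.C c := by simp
  rw [HahnSeries.algebraMap_apply', h1, HahnSeries.ofPowerSeries_C]
  rfl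

theorem coeffLin_algebraMap_mul_emb (φ : Ω →ₗ[K] K) (c : Ω) (y : LaurentSeries K) :
    coeffLin φ (algebraMap Ω (LaurentSeries Ω) c * emb K Ω y) =
      algebraMap K (LaurentSeries K) (φ c) * y := by
  rw [coeffLin_mul_emb, algebraMap_laurent_eq_single', algebraMap_laurent_eq_single']
  congr 1
  ext k
  rw [coeffLin_coeff]
  rcases eq_or_ne k 0 with rfl | hk
  · simp
  · simp [HahnSeries.coeff_single_of_ne hk]

/-- generators of the span -/
def spanGens (Ω : Type*) [Field Ω] [Algebra K Ω] (S : Set (LaurentSeries K)) :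
    Set (LaurentSeries Ω) :=
  {z | ∃ c : Ω, ∃ a ∈ Algebra.adjoin K S, z = algebraMap Ω (LaurentSeries Ω) c * emb K Ω a}

theorem coeffLin_mem_of_mem_closure (φ : Ω →ₗ[K] K) {S : Set (LaurentSeries K)}
    {x : LaurentSeries Ω} (hx : x ∈ AddSubmonoid.closure (spanGens Ω S)) :
    coeffLin φ x ∈ Algebra.adjoin K S := by
  induction hx using AddSubmonoid.closure_induction with
  | mem z hz =>
    obtain ⟨c, a, ha, rfl⟩ := hz
    rw [coeffLin_algebraMap_mul_emb]
    exact mul_mem (Subalgebra.algebraMap_mem _ _) ha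
  | zero => rw [map_zero]; exact zero_mem _
  | add y z _ _ hy hz => rw [map_add]; exact add_mem hy hz

theorem mul_mem_closure_spanGens {S : Set (LaurentSeries K)} {x y : LaurentSeries Ω}
    (hx : x ∈ AddSubmonoid.closure (spanGens Ω S)) (hy : y ∈ AddSubmonoid.closure (spanGens Ω S)) :
    x * y ∈ AddSubmonoid.closure (spanGens Ω S) := by
  induction hx using AddSubmonoid.closure_induction with
  | mem z hz =>
    induction hy using AddSubmonoid.closure_induction with
    | mem w hw =>
      obtain ⟨c, a, ha, rfl⟩ := hz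
      obtain ⟨d, b, hb, rfl⟩ := hw
      refine AddSubmonoid.subset_closure ⟨c * d, a * b, mul_mem ha hb, ?_⟩
      rw [map_mul, map_mul]
      ring
    | zero => rw [mul_zero]; exact zero_mem _
    | add u v _ _ hu hv => rw [mul_add]; exact add_mem hu hv
  | zero => rw [zero_mul]; exact zero_mem _
  | add u v _ _ hu hv => rw [add_mul]; exact add_mem hu hv

/-- elements of the `Ω`-algebra generated by `emb '' S` are in the `Ω`-span of `K[S]`. -/
theorem mem_closure_of_mem_adjoin {S : Set (LaurentSeries K)} {x : LaurentSeries Ω}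
    (hx : x ∈ Algebra.adjoin Ω (emb K Ω '' S)) :
    x ∈ AddSubmonoid.closure (spanGens Ω S) := by
  induction hx using Algebra.adjoin_induction with
  | mem y hy =>
    obtain ⟨s, hs, rfl⟩ := hy
    exact AddSubmonoid.subset_closure ⟨1, s, Algebra.subset_adjoin hs, by rw [map_one, one_mul]⟩
  | algebraMap r =>
    exact AddSubmonoid.subset_closure ⟨r, 1, one_mem _, by rw [map_one, mul_one]⟩
  | add y z _ _ hy hz => exact add_mem hy hz
  | mul y z _ _ hy hz => exact mul_mem_closure_spanGens hy hz

/-- **Coefficient descent**: `Ω(S) ∩ K((q)) = K(S)`. -/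
theorem mem_adjoin_of_coeffMap_mem {S : Set (LaurentSeries K)} {y : LaurentSeries K}
    (hy : emb K Ω y ∈ IntermediateField.adjoin Ω (emb K Ω '' S)) :
    y ∈ IntermediateField.adjoin K S := by
  rw [IntermediateField.mem_adjoin_iff_div] at hy
  obtain ⟨r, hr, s, hs, hrs⟩ := hy
  by_cases hs0 : s = 0
  · rw [hs0, div_zero] at hrs
    have : y = 0 := by
      ext k
      have := congrArg (fun z : LaurentSeries Ω => z.coeff k) hrs
      simpa using this
    rw [this]
    exact zero_mem _
  obtain ⟨k, hk⟩ : ∃ k, s.coeff k ≠ 0 := by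
    by_contra hcon
    push Not at hcon
    exact hs0 (by ext k; simpa using hcon k)
  obtain ⟨φ, hφ⟩ : ∃ φ : Ω →ₗ[K] K, φ (s.coeff k) ≠ 0 := by
    by_contra hcon
    push Not at hcon
    exact hk ((Module.forall_dual_apply_eq_zero_iff K (s.coeff k)).1 hcon)
  have h1 : coeffLin φ s * y = coeffLin φ r := by
    rw [← coeffLin_mul_emb, hrs, mul_div_cancel₀ _ hs0]
  have h2 : coeffLin φ s ≠ 0 := by
    intro h
    exact hφ (by rw [← coeffLin_coeff, h]; rfl)
  have h3 : coeffLin φ s ∈ Algebra.adjoin K S :=
    coeffLin_mem_of_mem_closure φ (mem_closure_of_mem_adjoin hs)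
  have h4 : coeffLin φ r ∈ Algebra.adjoin K S :=
    coeffLin_mem_of_mem_closure φ (mem_closure_of_mem_adjoin hr)
  have h5 : y = coeffLin φ r / coeffLin φ s := by
    rw [← h1, mul_div_cancel_left₀ _ h2]
  rw [h5]
  exact div_mem (IntermediateField.algebra_adjoin_le_adjoin K S h4)
    (IntermediateField.algebra_adjoin_le_adjoin K S h3)

theorem coeffMap_mem_adjoin_iff {S : Set (LaurentSeries K)} {y : LaurentSeries K} :
    emb K Ω y ∈ IntermediateField.adjoin Ω (emb K Ω '' S) ↔ y ∈ IntermediateField.adjoin K S := by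
  refine ⟨mem_adjoin_of_coeffMap_mem, fun hy => ?_⟩
  rw [IntermediateField.mem_adjoin_iff_div] at hy
  obtain ⟨r, hr, s, hs, rfl⟩ := hy
  have key : ∀ z ∈ Algebra.adjoin K S,
      emb K Ω z ∈ IntermediateField.adjoin Ω (emb K Ω '' S) := by
    intro z hz
    induction hz using Algebra.adjoin_induction with
    | mem z hz => exact IntermediateField.subset_adjoin _ _ ⟨z, hz, rfl⟩
    | algebraMap c =>
      have : emb K Ω (algebraMap K (LaurentSeries K) c) =
          algebraMap Ω (LaurentSeries Ω) (algebraMap K Ω c) := by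
        rw [algebraMap_laurent_eq_single', algebraMap_laurent_eq_single', coeffMap_single]
      rw [this]
      exact IntermediateField.algebraMap_mem _ _
    | add y z _ _ hy hz => rw [map_add]; exact add_mem hy hz
    | mul y z _ _ hy hz => rw [map_mul]; exact mul_mem hy hz
  rw [map_div₀]
  exact div_mem (key r hr) (key s hs)

theorem emb_qExpand_jqModC (d : ℕ) [NeZero d] :
    emb K Ω (qExpand K d (jqModC K)) = qExpand Ω d (jqModC Ω) := by
  rw [coeffMap_qExpand, coeffMap_jqModC]

theorem emb_image_divisorExpansionsC (N : ℕ) :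
    emb K Ω '' divisorExpansionsC K N = divisorExpansionsC Ω N := by
  ext x
  constructor
  · rintro ⟨_, ⟨d, hd, hdN, rfl⟩, rfl⟩
    exact ⟨d, hd, hdN, emb_qExpand_jqModC d⟩
  · rintro ⟨d, hd, hdN, rfl⟩
    exact ⟨_, ⟨d, hd, hdN, rfl⟩, emb_qExpand_jqModC d⟩

/-- `F_N(Ω) ∩ K((q)) = F_N(K)`. -/
theorem emb_mem_full_iff {N : ℕ} {y : LaurentSeries K} :
    emb K Ω y ∈ modularFunctionFieldFullC Ω N ↔ y ∈ modularFunctionFieldFullC K N := by
  rw [modularFunctionFieldFullC, ← emb_image_divisorExpansionsC (K := K)]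
  exact coeffMap_mem_adjoin_iff

/-- base change of an adjoined field over `ℚ` -/
theorem laurentBaseChange_adjoin (L : Type*) [Field L] [Algebra ℚ L] (S : Set (LaurentSeries ℚ)) :
    laurentBaseChange L (IntermediateField.adjoin ℚ S) =
      IntermediateField.adjoin L (coeffEmb L '' S) := by
  apply le_antisymm
  · rw [laurentBaseChange, IntermediateField.adjoin_le_iff]
    rintro _ ⟨y, hy, rfl⟩
    exact (coeffMap_mem_adjoin_iff (K := ℚ) (Ω := L)).2 hy
  · rw [IntermediateField.adjoin_le_iff]
    rintro _ ⟨y, hy, rfl⟩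
    exact IntermediateField.subset_adjoin _ _ ⟨y, IntermediateField.subset_adjoin _ _ hy, rfl⟩

/-- `laurentBaseChange L F_N = F_N(L)`. -/
theorem laurentBaseChange_full (L : Type*) [Field L] [Algebra ℚ L] (N : ℕ) :
    laurentBaseChange L (modularFunctionFieldFull N) = modularFunctionFieldFullC L N := by
  rw [modularFunctionFieldFull, laurentBaseChange_adjoin, modularFunctionFieldFullC,
    ← emb_image_divisorExpansionsC (K := ℚ)]
  rfl

theorem modularFunctionFieldBar_eq (N : ℕ) :
    modularFunctionFieldBar N = modularFunctionFieldFullC (AlgebraicClosure ℚ) N :=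
  laurentBaseChange_full _ N

/-- Coefficient descent for `laurentBaseChange`. -/
theorem coeffEmb_mem_laurentBaseChange_iff (L : Type*) [Field L] [Algebra ℚ L]
    (S : Set (LaurentSeries ℚ)) {y : LaurentSeries ℚ} :
    coeffEmb L y ∈ laurentBaseChange L (IntermediateField.adjoin ℚ S) ↔
      y ∈ IntermediateField.adjoin ℚ S := by
  rw [laurentBaseChange_adjoin]
  exact coeffMap_mem_adjoin_iff (K := ℚ) (Ω := L)

end Fermat.Agent.MFF
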