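import Fermat.Agent.IntStr.Assembly
import Fermat.Agent.IntStr.Conj
import Fermat.Agent.FunField.JExp
import Fermat.Prelude.Def_ModularCurve_X0ModL

/-!
# Elements of the function field of `X₀(N)` over `ℂ` are ratios of modular forms
-/

set_option autoImplicit false

open UpperHalfPlane ModularForm MatrixGroups CongruenceSubgroup ModularCurve
open Fermat.Agent.IntStr

noncomputable section

namespace Fermat.Agent.MFF

/-- the `q`-expansion as a Laurent series -/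
def LQ (f : ℍ → ℂ) : LaurentSeries ℂ := HahnSeries.ofPowerSeries ℤ ℂ (qExpansion 1 f)

theorem LQ_mul {f g : ℍ → ℂ} (hf : AnQ f) (hg : AnQ g) : LQ (f * g) = LQ f * LQ g := by
  rw [LQ, qExp_mul hf hg, map_mul]; rfl

theorem LQ_add {f g : ℍ → ℂ} (hf : AnQ f) (hg : AnQ g) : LQ (f + g) = LQ f + LQ g := by
  rw [LQ, qExp_add hf hg, map_add]; rfl

theorem LQ_pow {f : ℍ → ℂ} (hf : AnQ f) (n : ℕ) : LQ (f ^ n) = LQ f ^ n := by
  rw [LQ, qExp_pow hf, map_pow]; rfl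

theorem LQ_sum {ι : Type*} {s : Finset ι} {f : ι → ℍ → ℂ} (hf : ∀ i ∈ s, AnQ (f i)) :
    LQ (∑ i ∈ s, f i) = ∑ i ∈ s, LQ (f i) := by
  rw [LQ, qExp_sum hf, map_sum]; rfl

theorem LQ_zero : LQ 0 = 0 := by
  rw [LQ, UpperHalfPlane.qExpansion_zero, map_zero]

theorem LQ_one : LQ 1 = 1 := by
  rw [LQ, qExpansion_one, map_one]

theorem LQ_smul {f : ℍ → ℂ} (c : ℂ) (hf : AnQ f) : LQ (c • f) = c • LQ f := by
  have h : qExpansion 1 (c • f) = c • qExpansion 1 f := UpperHalfPlane.qExpansion_smul hf c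
  rw [LQ, h]
  ext n
  rcases le_or_gt 0 n with hn | hn
  · lift n to ℕ using hn
    rw [HahnSeries.ofPowerSeries_apply_coeff, HahnSeries.coeff_smul, LQ,
      HahnSeries.ofPowerSeries_apply_coeff, PowerSeries.coeff_smul]
  · rw [ofPowerSeries_coeff_of_neg _ hn, HahnSeries.coeff_smul, LQ,
      ofPowerSeries_coeff_of_neg _ hn, smul_zero]

theorem AnQ.smul {f : ℍ → ℂ} (c : ℂ) (hf : AnQ f) : AnQ (c • f) := by
  unfold AnQ at *
  rw [cuspFunction_smul hf.continuousAt]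
  exact analyticAt_const.mul hf

theorem LQ_neg {f : ℍ → ℂ} (hf : AnQ f) : LQ (-f) = -LQ f := by
  have h1 : AnQ (-f) := by simpa using AnQ.smul (-1) hf
  have h2 := LQ_add hf h1
  rw [add_neg_cancel, LQ_zero] at h2
  exact (neg_eq_of_add_eq_zero_right h2.symm).symm

theorem LQ_smul' {f : ℍ → ℂ} (c : ℂ) (hf : AnQ f) :
    LQ (c • f) = algebraMap ℂ (LaurentSeries ℂ) c * LQ f := by
  rw [LQ_smul c hf, algebraMap_laurentSeries_eq_single]
  ext n
  rw [HahnSeries.coeff_smul, HahnSeries.coeff_single_zero_mul, smul_eq_mul]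

section Forms

variable {N : ℕ} {k l : ℤ} {f g : ℍ → ℂ}

theorem IsMN.neg' (hf : IsMN N k f) : IsMN N k (-f) := by
  simpa using hf.smul (-1)

theorem LQ_eq_zero_iff [NeZero N] (hf : IsMN N k f) : LQ f = 0 ↔ f = 0 := by
  constructor
  · intro h
    refine hf.eq_zero_of_qExp ?_
    exact (map_eq_zero_iff _ HahnSeries.ofPowerSeries_injective).1 h
  · rintro rfl
    exact LQ_zero

theorem LQ_injOn [NeZero N] (hf : IsMN N k f) (hg : IsMN N k g) (h : LQ f = LQ g) : f = g :=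
  hf.eq_of_qExp hg (HahnSeries.ofPowerSeries_injective h)

/-- a product of two forms vanishes only if one of them does -/
theorem mul_eq_zero_iff [NeZero N] (hf : IsMN N k f) (hg : IsMN N l g) :
    f * g = 0 ↔ f = 0 ∨ g = 0 := by
  rw [← LQ_eq_zero_iff (hf.mul hg), LQ_mul hf.anQ hg.anQ, mul_eq_zero, LQ_eq_zero_iff hf,
    LQ_eq_zero_iff hg]

end Forms

/-! ### the forms `F(dz)` -/

theorem Gamma0_le_of_dvd {d N : ℕ} (h : d ∣ N) :
    (Gamma0 N : Subgroup (GL (Fin 2) ℝ)) ≤ (Gamma0 d : Subgroup (GL (Fin 2) ℝ)) := by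
  rintro _ ⟨g, hg, rfl⟩
  refine ⟨g, ?_, rfl⟩
  have hg' : g ∈ Gamma0 N := hg
  rw [Gamma0_mem, ZMod.intCast_zmod_eq_zero_iff_dvd] at hg'
  change g ∈ Gamma0 d
  rw [Gamma0_mem, ZMod.intCast_zmod_eq_zero_iff_dvd]
  exact dvd_trans (by exact_mod_cast h) hg'

/-- The form `F(dz)` on `Γ₀(N)`, for `F` of level one and `d ∣ N`. -/
def liftMod {d N : ℕ} [NeZero d] (h : d ∣ N) {k : ℤ} (F : ModularForm 𝒮ℒ k) :
    ModularForm (Gamma0 N : Subgroup (GL (Fin 2) ℝ)) k :=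
  ((d : ℂ) ^ (1 - k : ℤ)) •
    restrictMod ((Gamma0_le_of_dvd h).trans (Gamma0_le_conj d))
      (ModularForm.translate F (heckeDiagMatrix d))

theorem liftMod_apply {d N : ℕ} [NeZero d] (h : d ∣ N) {k : ℤ} (F : ModularForm 𝒮ℒ k) (τ : ℍ) :
    liftMod h F τ = F (heckeDiagMatrix d • τ) := by
  have hd : d ≠ 0 := NeZero.ne d
  have hd' : (d : ℂ) ≠ 0 := by exact_mod_cast hd
  have : liftMod h F τ = ((d : ℂ) ^ (1 - k : ℤ)) * ((⇑F : ℍ → ℂ) ∣[k] (heckeDiagMatrix d)) τ := rfl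
  rw [this, slash_heckeDiagMatrix_apply _ hd, ← mul_assoc, ← zpow_add₀ hd']
  simp

theorem liftMod_coeff {d N : ℕ} [NeZero d] (h : d ∣ N) {k : ℤ} (F : ModularForm 𝒮ℒ k) (n : ℕ) :
    (qExpansion 1 (liftMod h F)).coeff n =
      if d ∣ n then (qExpansion 1 F).coeff (n / d) else 0 := by
  have hd : d ≠ 0 := NeZero.ne d
  symm
  refine ModularFormClass.qExpansion_coeff_unique (f := liftMod h F)
    (c := fun n => if d ∣ n then (qExpansion 1 F).coeff (n / d) else 0) one_pos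
    (CongruenceSubgroup.one_mem_strictPeriods_Gamma0 N) ?_ n
  intro τ
  have hinj : Function.Injective (fun m : ℕ => d * m) := fun a b h =>
    Nat.eq_of_mul_eq_mul_left (Nat.pos_of_ne_zero hd) h
  rw [← hinj.hasSum_iff]
  · have h := ModularForm.hasSum_qExpansion F one_pos one_mem_strictPeriods_SL
      (heckeDiagMatrix d • τ)
    rw [liftMod_apply]
    convert h using 2 with m
    simp only [Function.comp_apply, dvd_mul_right, if_true,
      Nat.mul_div_cancel_left _ (Nat.pos_of_ne_zero hd), smul_eq_mul]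
    congr 1
    rw [coe_heckeDiagMatrix_smul hd, pow_mul]
    congr 1
    simp only [Function.Periodic.qParam, ← Complex.exp_nat_mul]
    congr 1
    ring
  · intro x hx
    have : ¬ d ∣ x := fun ⟨m, hm⟩ => hx ⟨m, hm.symm⟩
    simp [this]

theorem LQ_liftMod {d N : ℕ} [NeZero d] (h : d ∣ N) {k : ℤ} (F : ModularForm 𝒮ℒ k) :
    LQ (liftMod h F) = qExpand ℂ d (LQ F) := by
  have hd : d ≠ 0 := NeZero.ne d
  ext n
  by_cases hn : (d : ℤ) ∣ n
  · obtain ⟨m, rfl⟩ := hn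
    rw [qExpand_coeff_mul]
    rcases le_or_gt 0 m with hm | hm
    · lift m to ℕ using hm
      have h1 : ((d : ℤ) * (m : ℤ)) = ((d * m : ℕ) : ℤ) := by push_cast; ring
      rw [h1, LQ, LQ, HahnSeries.ofPowerSeries_apply_coeff, HahnSeries.ofPowerSeries_apply_coeff,
        liftMod_coeff]
      simp [Nat.mul_div_cancel_left _ (Nat.pos_of_ne_zero hd)]
    · have h1 : (d : ℤ) * m < 0 :=
        mul_neg_of_pos_of_neg (by exact_mod_cast Nat.pos_of_ne_zero hd) hm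
      rw [LQ, LQ, ofPowerSeries_coeff_of_neg _ h1, ofPowerSeries_coeff_of_neg _ hm]
  · rw [qExpand_coeff_of_not_dvd _ _ hn]
    rcases le_or_gt 0 n with hn' | hn'
    · lift n to ℕ using hn'
      rw [LQ, HahnSeries.ofPowerSeries_apply_coeff, liftMod_coeff, if_neg]
      intro h2
      exact hn (by exact_mod_cast h2)
    · rw [LQ, ofPowerSeries_coeff_of_neg _ hn']

/-! ### `Δ` and `E₄` as level one modular forms -/

/-- `Δ` as a modular form of level one -/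
def Delta : ModularForm 𝒮ℒ 12 := (CuspForm.discriminant : CuspForm 𝒮ℒ 12)

theorem coe_Delta : (⇑Delta : ℍ → ℂ) = ModularForm.discriminant := rfl

theorem Delta_ne_zero (τ : ℍ) : Delta τ ≠ 0 := by
  rw [coe_Delta]
  exact ModularForm.discriminant_ne_zero τ

/-- `E₄ ^ 3` -/
def E4cube : ModularForm 𝒮ℒ 12 :=
  ModularForm.mcast (by norm_num) (((E₄ : ModularForm 𝒮ℒ 4).mul E₄).mul E₄)

theorem coe_E4cube : (⇑E4cube : ℍ → ℂ) = (⇑(E₄ : ModularForm 𝒮ℒ 4) : ℍ → ℂ) ^ 3 := by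
  have : (⇑E4cube : ℍ → ℂ) = (⇑(E₄ : ModularForm 𝒮ℒ 4) : ℍ → ℂ) *
    (⇑(E₄ : ModularForm 𝒮ℒ 4) : ℍ → ℂ) * (⇑(E₄ : ModularForm 𝒮ℒ 4) : ℍ → ℂ) := rfl
  rw [this]; ring

theorem jqModC_mul_LQ_Delta : jqModC ℂ * LQ Delta = LQ E4cube := by
  rw [coe_E4cube, LQ_pow isL1_E₄.anQ]
  exact Fermat.Agent.FunField.jqModC_mul

/-! ### ratios -/

/-- `x` is a ratio of modular forms of the same weight `12 m` on `Γ₀(N)`. -/
def IsRatio (N : ℕ) (x : LaurentSeries ℂ) : Prop :=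
  ∃ (m : ℕ) (f g : ℍ → ℂ), IsMN N ((12 * m : ℕ) : ℤ) f ∧ IsMN N ((12 * m : ℕ) : ℤ) g ∧ g ≠ 0 ∧
    x * LQ g = LQ f

variable {N : ℕ} [NeZero N] {x y : LaurentSeries ℂ}

omit [NeZero N] in
theorem IsRatio.zero : IsRatio N 0 :=
  ⟨0, 0, 1, IsMN.zero _ _, (IsMN.one N).cast (by simp), one_ne_zero, by rw [LQ_zero, zero_mul]⟩

omit [NeZero N] in
theorem IsRatio.one : IsRatio N 1 :=
  ⟨0, 1, 1, (IsMN.one N).cast (by simp), (IsMN.one N).cast (by simp), one_ne_zero, by rw [one_mul]⟩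

theorem IsRatio.mul (hx : IsRatio N x) (hy : IsRatio N y) : IsRatio N (x * y) := by
  obtain ⟨m, f, g, hf, hg, hg0, h⟩ := hx
  obtain ⟨m', f', g', hf', hg', hg0', h'⟩ := hy
  refine ⟨m + m', f * f', g * g', (hf.mul hf').cast (by push_cast; ring),
    (hg.mul hg').cast (by push_cast; ring), ?_, ?_⟩
  · rw [Ne, mul_eq_zero_iff hg hg']
    tauto
  · rw [LQ_mul hf.anQ hf'.anQ, LQ_mul hg.anQ hg'.anQ, ← h, ← h']
    ring

theorem IsRatio.add (hx : IsRatio N x) (hy : IsRatio N y) : IsRatio N (x + y) := by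
  obtain ⟨m, f, g, hf, hg, hg0, h⟩ := hx
  obtain ⟨m', f', g', hf', hg', hg0', h'⟩ := hy
  refine ⟨m + m', f * g' + g * f', g * g',
    ((hf.mul hg').cast (by push_cast; ring)).add ((hg.mul hf').cast (by push_cast; ring)),
    (hg.mul hg').cast (by push_cast; ring), ?_, ?_⟩
  · rw [Ne, mul_eq_zero_iff hg hg']
    tauto
  · rw [LQ_add (hf.anQ.mul hg'.anQ) (hg.anQ.mul hf'.anQ), LQ_mul hf.anQ hg'.anQ,
      LQ_mul hg.anQ hf'.anQ, LQ_mul hg.anQ hg'.anQ, ← h, ← h']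
    ring

theorem IsRatio.inv (hx : IsRatio N x) : IsRatio N x⁻¹ := by
  obtain ⟨m, f, g, hf, hg, hg0, h⟩ := hx
  rcases eq_or_ne x 0 with rfl | hx0
  · rw [inv_zero]; exact IsRatio.zero
  refine ⟨m, g, f, hg, hf, ?_, ?_⟩
  · intro hf0
    rw [hf0, LQ_zero] at h
    rcases mul_eq_zero.1 h with h | h
    · exact hx0 h
    · exact hg0 ((LQ_eq_zero_iff hg).1 h)
  · rw [← h, inv_mul_cancel_left₀ hx0]

omit [NeZero N] in
theorem IsRatio.algebraMap (c : ℂ) : IsRatio N (algebraMap ℂ (LaurentSeries ℂ) c) := by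
  refine ⟨0, c • 1, 1, ((IsMN.one N).smul c).cast (by simp), (IsMN.one N).cast (by simp),
    one_ne_zero, ?_⟩
  rw [LQ_smul' c AnQ.one, LQ_one, mul_one]

omit [NeZero N] in
theorem isRatio_generator {d : ℕ} [NeZero d] (hd : d ∣ N) :
    IsRatio N (qExpand ℂ d (jqModC ℂ)) := by
  refine ⟨1, liftMod hd E4cube, liftMod hd Delta, ⟨_, rfl⟩, ⟨_, rfl⟩, ?_, ?_⟩
  · intro h
    have := congrFun h I
    rw [liftMod_apply] at this
    exact Delta_ne_zero _ this
  · rw [LQ_liftMod, LQ_liftMod, ← map_mul, jqModC_mul_LQ_Delta]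

/-- Every element of the function field `ℂ(j(q^d) : d ∣ N)` is a ratio of modular forms of
weight `12 m` on `Γ₀(N)`. -/
theorem isRatio_of_mem {x : LaurentSeries ℂ} (hx : x ∈ modularFunctionFieldFullC ℂ N) :
    IsRatio N x := by
  unfold modularFunctionFieldFullC at hx
  induction hx using IntermediateField.adjoin_induction with
  | mem x hx =>
    obtain ⟨d, hd0, hd, rfl⟩ := hx
    exact isRatio_generator hd
  | algebraMap c => exact IsRatio.algebraMap c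
  | add x y _ _ hx hy => exact hx.add hy
  | inv x _ hx => exact hx.inv
  | mul x y _ _ hx hy => exact hx.mul hy

/-- **D3**: every element of the function field `ℂ(j(q^d) : d ∣ N)` is a ratio of modular forms
of weight `12 m` on `Γ₀(N)`. -/
theorem exists_ratio {x : LaurentSeries ℂ} (hx : x ∈ modularFunctionFieldFullC ℂ N) :
    ∃ (m : ℕ) (f g : ModularForm (Gamma0 N : Subgroup (GL (Fin 2) ℝ)) ((12 * m : ℕ) : ℤ)),
      (⇑g : ℍ → ℂ) ≠ 0 ∧ x * LQ g = LQ f := by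
  obtain ⟨m, _, _, ⟨f, rfl⟩, ⟨g, rfl⟩, hg0, h⟩ := isRatio_of_mem hx
  exact ⟨m, f, g, hg0, h⟩

end Fermat.Agent.MFF
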