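import Fermat.Agent.MFF.Integral
import Fermat.Agent.MFF.CoeffDescent
import Fermat.Agent.JAN.Defs

/-!
# Dictionary between the function field of `X₀(N)` and forms, in team JAN's language
-/

set_option autoImplicit false

open UpperHalfPlane ModularForm MatrixGroups CongruenceSubgroup ModularCurve FermatJ
open Fermat.Agent.IntStr Fermat.Agent.JAN
open scoped Manifold

noncomputable section

namespace Fermat.Agent.MFF

section

variable {N : ℕ} [NeZero N] {k : ℤ} {f : ℍ → ℂ}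

theorem isCharForm_of_isMN (hf : IsMN N k f) : IsCharForm N k 1 f := by
  obtain ⟨F, rfl⟩ := hf
  refine ⟨F.holo', ?_, ?_⟩
  · intro γ
    have h := F.slash_action_eq' (Matrix.SpecialLinearGroup.mapGL ℝ (γ : SL(2, ℤ))) ⟨γ, γ.2, rfl⟩
    rw [MonoidHom.one_apply, Units.val_one, one_smul]
    exact h
  · intro g
    exact ModularFormClass.bdd_at_infty_slash F g

theorem isMN_of_isCharForm (hf : IsCharForm N k 1 f) : IsMN N k f := by
  refine ⟨⟨⟨f, ?_⟩, hf.holo, ?_⟩, rfl⟩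
  · rintro _ ⟨γ, hγ, rfl⟩
    have h := hf.slash ⟨γ, hγ⟩
    rw [MonoidHom.one_apply, Units.val_one, one_smul] at h
    exact h
  · intro x hx
    rw [Subgroup.IsArithmetic.isCusp_iff_isCusp_SL2Z] at hx
    rw [OnePoint.isBoundedAt_iff_forall_SL2Z hx]
    intro γ _
    exact hf.bdd γ

theorem isCharForm_one_iff : IsCharForm N k 1 f ↔ IsMN N k f :=
  ⟨isMN_of_isCharForm, isCharForm_of_isMN⟩

theorem hasExp_LQ (hf : IsMN N k f) : HasExp (qc 1) f (LQ f) := by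
  obtain ⟨F, rfl⟩ := hf
  refine HasExp.of_hasPS fun τ => ?_
  have h := ModularForm.hasSum_qExpansion (h := 1) F one_pos
    (CongruenceSubgroup.one_mem_strictPeriods_Gamma0 N) τ
  simpa [qc] using h

theorem eq_LQ_of_hasExp (hf : IsMN N k f) {φ : LaurentSeries ℂ} (h : HasExp (qc 1) f φ) :
    φ = LQ f :=
  h.unique (eventually_mem_range_qc 1) (hasExp_LQ hf)

theorem ne_zero_iff_exists {f : ℍ → ℂ} : f ≠ 0 ↔ ∃ τ, f τ ≠ 0 := by
  rw [Ne, funext_iff]
  push Not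
  rfl

end

section

variable {L : Type*} [Field L] [Algebra L ℂ] {N : ℕ} [NeZero N] {x : LaurentSeries L}

/-- Elements of the function field over `L ⊆ ℂ` are ratios of forms of trivial character. -/
theorem exists_charForm_ratio (hx : x ∈ modularFunctionFieldFullC L N) :
    ∃ (m : ℕ) (A B : ℍ → ℂ) (β : LaurentSeries ℂ),
      IsCharForm N ((12 * m : ℕ) : ℤ) 1 A ∧ IsCharForm N ((12 * m : ℕ) : ℤ) 1 B ∧
        (∃ τ, B τ ≠ 0) ∧ HasExp (qc 1) B β ∧ HasExp (qc 1) A (toC x * β) := by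
  have hx' : emb L ℂ x ∈ modularFunctionFieldFullC ℂ N := emb_mem_full_iff.2 hx
  obtain ⟨m, f, g, hf, hg, hg0, h⟩ := isRatio_of_mem hx'
  refine ⟨m, f, g, LQ g, isCharForm_of_isMN hf, isCharForm_of_isMN hg, ne_zero_iff_exists.1 hg0, hasExp_LQ hg, ?_⟩
  have := hasExp_LQ hf
  rw [← h] at this
  exact this

theorem exists_charForm_ratio' [Algebra ℚ L]
    (hx : x ∈ laurentBaseChange L (modularFunctionFieldFull N)) :
    ∃ (m : ℕ) (A B : ℍ → ℂ) (β : LaurentSeries ℂ),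
      IsCharForm N ((12 * m : ℕ) : ℤ) 1 A ∧ IsCharForm N ((12 * m : ℕ) : ℤ) 1 B ∧
        (∃ τ, B τ ≠ 0) ∧ HasExp (qc 1) B β ∧ HasExp (qc 1) A (toC x * β) := by
  rw [laurentBaseChange_full] at hx
  exact exists_charForm_ratio hx

/-- Nonzero elements of the function field are ratios of nonzero forms. -/
theorem exists_charForm_ratio_ne (hx : x ∈ modularFunctionFieldFullC L N) (hx0 : x ≠ 0) :
    ∃ (m : ℕ) (A B : ℍ → ℂ) (β : LaurentSeries ℂ),
      IsCharForm N ((12 * m : ℕ) : ℤ) 1 A ∧ IsCharForm N ((12 * m : ℕ) : ℤ) 1 B ∧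
        (∃ τ, A τ ≠ 0) ∧ (∃ τ, B τ ≠ 0) ∧ β ≠ 0 ∧
          HasExp (qc 1) B β ∧ HasExp (qc 1) A (toC x * β) := by
  obtain ⟨m, A, B, β, hA, hB, hB0, hβ, hα⟩ := exists_charForm_ratio hx
  have hβ' := eq_LQ_of_hasExp (isMN_of_isCharForm hB) hβ
  have hβ0 : β ≠ 0 := by
    rw [hβ', Ne, LQ_eq_zero_iff (isMN_of_isCharForm hB)]
    exact ne_zero_iff_exists.2 hB0
  refine ⟨m, A, B, β, hA, hB, ?_, hB0, hβ0, hβ, hα⟩
  rw [← ne_zero_iff_exists, Ne, ← LQ_eq_zero_iff (isMN_of_isCharForm hA), ← eq_LQ_of_hasExp (isMN_of_isCharForm hA) hα]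
  refine mul_ne_zero ?_ hβ0
  intro h
  exact hx0 ((map_eq_zero_iff _ (RingHom.injective _)).1 h)

/-- The converse direction over `ℂ` (helper62's `D2`): ratios of forms are in the function field. -/
def RatioMem (N : ℕ) [NeZero N] : Prop :=
  ∀ x : LaurentSeries ℂ, IsRatio N x → x ∈ modularFunctionFieldFullC ℂ N

/-- The converse over `L`, from the converse over `ℂ`. -/
theorem mem_full_of_charForm_ratio (H : RatioMem N) {m : ℕ} {A B : ℍ → ℂ} {β : LaurentSeries ℂ}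
    (hA : IsCharForm N ((12 * m : ℕ) : ℤ) 1 A) (hB : IsCharForm N ((12 * m : ℕ) : ℤ) 1 B)
    (hB0 : ∃ τ, B τ ≠ 0) (hβ : HasExp (qc 1) B β) (hα : HasExp (qc 1) A (toC x * β)) :
    x ∈ modularFunctionFieldFullC L N := by
  refine (emb_mem_full_iff (Ω := ℂ)).1 (H _ ⟨m, A, B, (isMN_of_isCharForm hA), (isMN_of_isCharForm hB), ne_zero_iff_exists.2 hB0, ?_⟩)
  rw [← eq_LQ_of_hasExp (isMN_of_isCharForm hB) hβ, ← eq_LQ_of_hasExp (isMN_of_isCharForm hA) hα]

end

end Fermat.Agent.MFF
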