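import Fermat.Agent.MFF.Ratio

/-!
# Integrality over `ℂ[j]` and modular forms

An element `x` of the function field of `X₀(N)` is integral over `ℂ[j]` if and only if
`x Δ^m` is a modular form of weight `12 m` on `Γ₀(N)` for some `m`.
-/

set_option autoImplicit false

open UpperHalfPlane ModularForm MatrixGroups CongruenceSubgroup ModularCurve
open Fermat.Agent.IntStr
open scoped Polynomial

noncomputable section

namespace Fermat.Agent.MFF

theorem isL1_Delta : IsL1 12 Delta := ⟨Delta, rfl⟩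

theorem isL1_E4cube : IsL1 12 E4cube := ⟨E4cube, rfl⟩

theorem LQ_Delta_ne_zero : LQ Delta ≠ 0 := by
  have h : IsMN 1 12 Delta := isL1_Delta.isMN 1
  rw [Ne, LQ_eq_zero_iff h]
  intro h0
  exact Delta_ne_zero I (congrFun h0 I)

theorem LQ_E4cube_ne_zero : LQ E4cube ≠ 0 := by
  rw [← jqModC_mul_LQ_Delta]
  exact mul_ne_zero (jqModC_ne_zero_of_nontrivial ℂ) LQ_Delta_ne_zero

theorem jqModC_eq_div : jqModC ℂ = LQ E4cube / LQ Delta := by
  rw [eq_div_iff LQ_Delta_ne_zero, jqModC_mul_LQ_Delta]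

theorem E4cube_coeff_zero (r : ℕ) : (qExpansion 1 ((⇑E4cube : ℍ → ℂ) ^ r)).coeff 0 = 1 := by
  have h1 : PowerSeries.constantCoeff (eisenstein4.map (Int.castRingHom ℂ)) = 1 := by
    rw [← PowerSeries.coeff_zero_eq_constantCoeff_apply, PowerSeries.coeff_map, eisenstein4,
      PowerSeries.coeff_mk]
    simp
  rw [qExp_pow isL1_E4cube.anQ, coe_E4cube, qExp_pow isL1_E₄.anQ,
    Fermat.Agent.FunField.qExpansion_E4, PowerSeries.coeff_zero_eq_constantCoeff_apply, map_pow,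
    map_pow, h1, one_pow, one_pow]

/-- Level one forms of weight `12 r` are `Δ^r` times a polynomial of degree `≤ r` in `j`. -/
theorem isL1_eq_poly (r : ℕ) : ∀ {f : ℍ → ℂ}, IsL1 ((12 * r : ℕ) : ℤ) f →
    ∃ P : ℂ[X], P.natDegree ≤ r ∧ LQ f = Polynomial.aeval (jqModC ℂ) P * LQ Delta ^ r := by
  induction r with
  | zero =>
    rintro f ⟨F, rfl⟩
    obtain ⟨c, hc⟩ := ModularFormClass.levelOne_weight_zero_const
      (ModularForm.mcast (by simp) F : ModularForm 𝒮ℒ 0)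
    have hc' : (⇑F : ℍ → ℂ) = c • (1 : ℍ → ℂ) := by
      have h1 : (⇑F : ℍ → ℂ) = Function.const ℍ c := hc
      rw [h1]; ext; simp
    refine ⟨Polynomial.C c, by simp, ?_⟩
    rw [hc', LQ_smul' c AnQ.one, LQ_one, Polynomial.aeval_C, pow_zero]
  | succ r ih =>
    rintro f ⟨F, rfl⟩
    have hG1 : IsL1 ((12 * (r + 1) : ℕ) : ℤ) ((⇑E4cube : ℍ → ℂ) ^ (r + 1)) :=
      (isL1_E4cube.pow (r + 1)).cast (by push_cast; ring)
    obtain ⟨G, hG⟩ := hG1
    have hG0 : (qExpansion 1 G).coeff 0 = 1 := by rw [hG]; exact E4cube_coeff_zero (r + 1)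
    set c := (qExpansion 1 F).coeff 0 with hc
    obtain ⟨H, hH⟩ := sub_smul_isCuspForm F G hG0
    have hH' : (⇑H : ℍ → ℂ) = ⇑F - c • ⇑G := by
      ext z
      exact DFunLike.congr_fun hH z
    have hFeq : (⇑F : ℍ → ℂ) = c • ⇑G + ⇑H := by rw [hH']; simp
    obtain ⟨g, hg, hg'⟩ := isL1Cusp_eq_delta'_mul (k := ((12 * (r + 1) : ℕ) : ℤ)) ⟨H, rfl⟩
    obtain ⟨P, hP, hPg⟩ := ih (hg.cast (l := ((12 * r : ℕ) : ℤ)) (by push_cast; ring))
    have hGA : AnQ (⇑G : ℍ → ℂ) := (show IsL1 _ (⇑G : ℍ → ℂ) from ⟨G, rfl⟩).anQ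
    refine ⟨Polynomial.C c * Polynomial.X ^ (r + 1) + Polynomial.C 1728 * P, ?_, ?_⟩
    · refine (Polynomial.natDegree_add_le _ _).trans (max_le ?_ ?_)
      · exact (Polynomial.natDegree_C_mul_le _ _).trans (by simp)
      · exact (Polynomial.natDegree_C_mul_le _ _).trans (by omega)
    · have hd : (⇑delta' : ℍ → ℂ) = (1728 : ℂ) • (⇑Delta : ℍ → ℂ) := rfl
      rw [hFeq, LQ_add (AnQ.smul c hGA) (by rw [hg', hd]; exact (AnQ.smul _ isL1_Delta.anQ).mul hg.anQ),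
        LQ_smul' c hGA, hg', LQ_mul (by rw [hd]; exact (AnQ.smul _ isL1_Delta.anQ)) hg.anQ, hd,
        LQ_smul' _ isL1_Delta.anQ, hPg, hG, LQ_pow isL1_E4cube.anQ, ← jqModC_mul_LQ_Delta]
      simp only [map_add, map_mul, Polynomial.aeval_C, map_pow, Polynomial.aeval_X]
      ring

/-- `Δ^r P(j)` is a level one form when `deg P ≤ r`. -/
theorem exists_isL1_of_poly {r : ℕ} {P : ℂ[X]} (hP : P.natDegree ≤ r) :
    ∃ f : ℍ → ℂ, IsL1 ((12 * r : ℕ) : ℤ) f ∧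
      LQ f = Polynomial.aeval (jqModC ℂ) P * LQ Delta ^ r := by
  refine ⟨∑ i ∈ Finset.range (r + 1), (P.coeff i) • ((⇑E4cube : ℍ → ℂ) ^ i *
    (⇑Delta : ℍ → ℂ) ^ (r - i)), ?_, ?_⟩
  · refine IsL1.sum fun i hi => IsL1.smul _ ?_
    rw [Finset.mem_range] at hi
    refine ((isL1_E4cube.pow i).mul (isL1_Delta.pow (r - i))).cast ?_
    obtain ⟨j, rfl⟩ : ∃ j, r = i + j := ⟨r - i, by omega⟩
    rw [Nat.add_sub_cancel_left]
    push_cast
    ring
  · rw [LQ_sum, Polynomial.aeval_eq_sum_range' (Nat.lt_succ_of_le hP), Finset.sum_mul]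
    · refine Finset.sum_congr rfl fun i hi => ?_
      rw [Finset.mem_range] at hi
      have hA : AnQ ((⇑E4cube : ℍ → ℂ) ^ i * (⇑Delta : ℍ → ℂ) ^ (r - i)) :=
        (isL1_E4cube.anQ.pow i).mul (isL1_Delta.anQ.pow _)
      rw [LQ_smul' _ hA, LQ_mul (isL1_E4cube.anQ.pow i) (isL1_Delta.anQ.pow _),
        LQ_pow isL1_E4cube.anQ, LQ_pow isL1_Delta.anQ, ← jqModC_mul_LQ_Delta, mul_pow,
        Algebra.smul_def]
      have h2 : LQ Delta ^ r = LQ Delta ^ i * LQ Delta ^ (r - i) := by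
        rw [← pow_add]; congr 1; omega
      rw [h2]
      ring
    · intro i _
      exact AnQ.smul _ ((isL1_E4cube.anQ.pow i).mul (isL1_Delta.anQ.pow _))

variable {N : ℕ} [NeZero N] {x : LaurentSeries ℂ}

omit [NeZero N] in
/-- A relation `f^n + Σ c_i f^{n-i} = 0` for forms, divided by `D^{mn}`. -/
theorem relation_div {m n : ℕ} {c : ℕ → ℍ → ℂ} {f D : ℍ → ℂ} (hf : AnQ f)
    (hc : ∀ i ∈ Finset.Icc 1 n, AnQ (c i)) (hD0 : LQ D ≠ 0)
    (hrel : f ^ n + ∑ i ∈ Finset.Icc 1 n, c i * f ^ (n - i) = 0)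
    (hx : x * LQ D ^ m = LQ f) :
    x ^ n + ∑ i ∈ Finset.Icc 1 n, (LQ (c i) / LQ D ^ (m * i)) * x ^ (n - i) = 0 := by
  have h1 := congrArg LQ hrel
  rw [LQ_zero, LQ_add (hf.pow n) (AnQ.sum fun i hi => (hc i hi).mul (hf.pow _)), LQ_pow hf,
    LQ_sum (fun i hi => (hc i hi).mul (hf.pow _))] at h1
  have hne : (LQ D ^ m) ^ n ≠ 0 := pow_ne_zero _ (pow_ne_zero _ hD0)
  have h2 : (LQ D ^ m) ^ n * (x ^ n + ∑ i ∈ Finset.Icc 1 n,
      (LQ (c i) / LQ D ^ (m * i)) * x ^ (n - i)) = 0 := by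
    rw [← h1, mul_add, Finset.mul_sum, ← hx, mul_pow]
    congr 1
    · ring
    · refine Finset.sum_congr rfl fun i hi => ?_
      rw [LQ_mul (hc i hi) (hf.pow _), LQ_pow hf, ← hx, mul_pow]
      rw [Finset.mem_Icc] at hi
      have h3 : (LQ D ^ m) ^ n = LQ D ^ (m * i) * (LQ D ^ m) ^ (n - i) := by
        rw [← pow_mul, ← pow_mul, ← pow_add, ← mul_add]
        congr 2
        omega
      rw [h3]
      have h4 : LQ D ^ (m * i) ≠ 0 := pow_ne_zero _ hD0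
      field_simp
  exact (mul_eq_zero.1 h2).resolve_left hne

/-- **D4, forms to functions, explicit version**: if `x Δ^m` is a form of weight `12 m` then `x`
satisfies a monic relation with coefficients polynomials in `j`, the `i`-th one of
degree `≤ m i`. -/
theorem exists_poly_relation {m : ℕ} {f : ℍ → ℂ} (hf : IsMN N ((12 * m : ℕ) : ℤ) f)
    (hx : x * LQ Delta ^ m = LQ f) :
    ∃ (n : ℕ) (P : ℕ → ℂ[X]), 0 < n ∧ (∀ i, (P i).natDegree ≤ m * i) ∧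
      x ^ n + ∑ i ∈ Finset.Icc 1 n, Polynomial.aeval (jqModC ℂ) (P i) * x ^ (n - i) = 0 := by
  obtain ⟨F, rfl⟩ := hf
  obtain ⟨n, c, hn, hc, hrel⟩ := exists_monic_relation_mod F
  have hc' : ∀ i ∈ Finset.Icc 1 n, IsL1 ((12 * (m * i) : ℕ) : ℤ) (c i) := fun i hi =>
    (hc i hi).cast (by push_cast; ring)
  choose! P hP hPc using fun i (hi : i ∈ Finset.Icc 1 n) => isL1_eq_poly (m * i) (hc' i hi)
  refine ⟨n, fun i => if i ∈ Finset.Icc 1 n then P i else 0, hn, ?_, ?_⟩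
  · intro i
    dsimp only
    split_ifs with h
    · exact hP i h
    · simp
  · rw [← relation_div (show AnQ _ from (show IsMN N _ (⇑F : ℍ → ℂ) from ⟨F, rfl⟩).anQ)
      (fun i hi => (hc i hi).anQ) LQ_Delta_ne_zero hrel hx]
    congr 1
    refine Finset.sum_congr rfl fun i hi => ?_
    dsimp only
    rw [if_pos hi, hPc i hi, mul_div_cancel_right₀ _ (pow_ne_zero _ LQ_Delta_ne_zero)]

/-- the ring `ℂ[j]` -/
abbrev Cj : Subalgebra ℂ (LaurentSeries ℂ) := Algebra.adjoin ℂ {jqModC ℂ}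

omit [NeZero N] in
theorem aeval_mem_Cj (P : ℂ[X]) : Polynomial.aeval (jqModC ℂ) P ∈ Cj := by
  rw [Cj, Algebra.adjoin_singleton_eq_range_aeval]
  exact ⟨P, rfl⟩

omit [NeZero N] in
theorem isIntegral_of_relation {R : Type*} [CommRing R] {K : Type*} [Field K] [Algebra R K] {x : K}
    {n : ℕ} {c : ℕ → K} (hc : ∀ i ∈ Finset.Icc 1 n, ∃ r : R, algebraMap R K r = c i)
    (hrel : x ^ n + ∑ i ∈ Finset.Icc 1 n, c i * x ^ (n - i) = 0) : IsIntegral R x := by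
  choose! r hr using hc
  refine ⟨Polynomial.X ^ n + ∑ i ∈ Finset.Icc 1 n, Polynomial.C (r i) * Polynomial.X ^ (n - i),
      ?_, ?_⟩
  · apply Polynomial.monic_X_pow_add
    refine lt_of_le_of_lt (Polynomial.degree_sum_le _ _) ?_
    rw [Finset.sup_lt_iff (by exact_mod_cast WithBot.bot_lt_coe n)]
    intro i hi
    rw [Finset.mem_Icc] at hi
    refine lt_of_le_of_lt (Polynomial.degree_C_mul_X_pow_le _ _) ?_
    exact_mod_cast (by omega : n - i < n)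
  · rw [Polynomial.eval₂_add, Polynomial.eval₂_pow, Polynomial.eval₂_X,
      Polynomial.eval₂_finsetSum]
    simp only [Polynomial.eval₂_mul, Polynomial.eval₂_C, Polynomial.eval₂_pow,
      Polynomial.eval₂_X]
    rw [← hrel]
    congr 1
    exact Finset.sum_congr rfl fun i hi => by rw [hr i hi]

omit [NeZero N] in
theorem relation_of_isIntegral {R : Type*} [CommRing R] {K : Type*} [Field K] [Algebra R K] {x : K}
    (hx : IsIntegral R x) : ∃ (n : ℕ) (r : ℕ → R), 0 < n ∧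
      x ^ n + ∑ i ∈ Finset.Icc 1 n, algebraMap R K (r i) * x ^ (n - i) = 0 := by
  rcases subsingleton_or_nontrivial R with hR | hR
  · have h1 : (1 : K) = 0 := by
      rw [← map_one (algebraMap R K), Subsingleton.elim (1 : R) 0, map_zero]
    exact absurd h1 one_ne_zero
  obtain ⟨p, hp, hpx⟩ := hx
  have hn : p.natDegree ≠ 0 := by
    intro h0
    rw [hp.natDegree_eq_zero.1 h0, Polynomial.eval₂_one] at hpx
    exact one_ne_zero hpx
  refine ⟨p.natDegree, fun i => p.coeff (p.natDegree - i), Nat.pos_of_ne_zero hn, ?_⟩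
  rw [← hpx, Polynomial.eval₂_eq_sum_range, Finset.sum_range_succ, hp.coeff_natDegree, map_one,
    one_mul, add_comm]
  congr 1
  refine Finset.sum_bij' (fun i _ => p.natDegree - i) (fun j _ => p.natDegree - j) ?_ ?_ ?_ ?_ ?_
  · intro i hi
    rw [Finset.mem_Icc] at hi
    rw [Finset.mem_range]
    omega
  · intro j hj
    rw [Finset.mem_range] at hj
    rw [Finset.mem_Icc]
    omega
  · intro i hi
    rw [Finset.mem_Icc] at hi
    omega
  · intro j hj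
    rw [Finset.mem_range] at hj
    omega
  · intro i _
    rfl

/-- **D4, forms to functions**. -/
theorem isIntegral_of_form {m : ℕ} {f : ℍ → ℂ} (hf : IsMN N ((12 * m : ℕ) : ℤ) f)
    (hx : x * LQ Delta ^ m = LQ f) : IsIntegral Cj x := by
  obtain ⟨n, P, hn, -, hrel⟩ := exists_poly_relation hf hx
  exact isIntegral_of_relation (R := Cj) (c := fun i => Polynomial.aeval (jqModC ℂ) (P i))
    (fun i _ => ⟨⟨_, aeval_mem_Cj (P i)⟩, rfl⟩) hrel

theorem aeval_div_pow_mem' {K : Type*} [Field K] [Algebra ℂ K] {J : K} (hj : J ≠ 0) {P : ℂ[X]}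
    {d : ℕ} (hP : P.natDegree ≤ d) :
    Polynomial.aeval J P / J ^ d ∈ Algebra.adjoin ℂ {J⁻¹} := by
  rw [Polynomial.aeval_eq_sum_range' (Nat.lt_succ_of_le hP), Finset.sum_div]
  refine Subalgebra.sum_mem _ fun i hi => ?_
  rw [Finset.mem_range] at hi
  obtain ⟨e, rfl⟩ : ∃ e, d = i + e := ⟨d - i, by omega⟩
  have h1 : (P.coeff i • J ^ i) / J ^ (i + e) = P.coeff i • (J⁻¹) ^ e := by
    rw [smul_div_assoc, pow_add, inv_pow, div_mul_eq_div_div, div_self (pow_ne_zero _ hj), one_div]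
  rw [h1]
  exact Subalgebra.smul_mem _ (Subalgebra.pow_mem _ (Algebra.subset_adjoin (Set.mem_singleton _))
    _) _

theorem aeval_div_pow_mem {P : ℂ[X]} {d : ℕ} (hP : P.natDegree ≤ d) :
    Polynomial.aeval (jqModC ℂ) P / jqModC ℂ ^ d ∈ Algebra.adjoin ℂ {(jqModC ℂ)⁻¹} :=
  aeval_div_pow_mem' (jqModC_ne_zero_of_nontrivial ℂ) hP

/-- **D4, forms to functions, at infinity**: if `x Δ^m` is a form of weight `12 m` then `x / j^m`
is integral over `ℂ[1/j]`. -/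
theorem isIntegral_inv_of_form {m : ℕ} {f : ℍ → ℂ} (hf : IsMN N ((12 * m : ℕ) : ℤ) f)
    (hx : x * LQ Delta ^ m = LQ f) :
    IsIntegral (Algebra.adjoin ℂ {(jqModC ℂ)⁻¹}) (x / jqModC ℂ ^ m) := by
  have hj := jqModC_ne_zero_of_nontrivial ℂ
  obtain ⟨n, P, hn, hP, hrel⟩ := exists_poly_relation hf hx
  refine isIntegral_of_relation (R := Algebra.adjoin ℂ {(jqModC ℂ)⁻¹}) (n := n)
    (c := fun i => Polynomial.aeval (jqModC ℂ) (P i) / jqModC ℂ ^ (m * i))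
    (fun i _ => ⟨⟨_, aeval_div_pow_mem (hP i)⟩, rfl⟩) ?_
  have hne : (jqModC ℂ ^ m) ^ n ≠ 0 := pow_ne_zero _ (pow_ne_zero _ hj)
  have h2 : (jqModC ℂ ^ m) ^ n * ((x / jqModC ℂ ^ m) ^ n + ∑ i ∈ Finset.Icc 1 n,
      Polynomial.aeval (jqModC ℂ) (P i) / jqModC ℂ ^ (m * i) * (x / jqModC ℂ ^ m) ^ (n - i)) =
      0 := by
    rw [← hrel, mul_add, Finset.mul_sum]
    congr 1
    · rw [div_pow, mul_div_cancel₀ _ hne]
    · refine Finset.sum_congr rfl fun i hi => ?_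
      rw [Finset.mem_Icc] at hi
      have h3 : (jqModC ℂ ^ m) ^ n = jqModC ℂ ^ (m * i) * (jqModC ℂ ^ m) ^ (n - i) := by
        rw [← pow_mul, ← pow_mul, ← pow_add, ← mul_add]
        congr 2
        omega
      rw [h3, div_pow]
      have h4 : jqModC ℂ ^ (m * i) ≠ 0 := pow_ne_zero _ hj
      have h5 : (jqModC ℂ ^ m) ^ (n - i) ≠ 0 := pow_ne_zero _ (pow_ne_zero _ hj)
      field_simp
  exact (mul_eq_zero.1 h2).resolve_left hne

/-- **D4, functions to forms, explicit version**: a ratio `x` of forms which satisfies a monic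
relation whose `i`-th coefficient is a polynomial in `j` of degree `≤ m i` is of the form
`f / Δ^m`. -/
theorem exists_form_of_poly_relation (hx : IsRatio N x) {m n : ℕ} {P : ℕ → ℂ[X]}
    (hm : ∀ i ∈ Finset.Icc 1 n, (P i).natDegree ≤ m * i)
    (hrel : x ^ n + ∑ i ∈ Finset.Icc 1 n, Polynomial.aeval (jqModC ℂ) (P i) * x ^ (n - i) = 0) :
    ∃ f : ModularForm (Gamma0 N : Subgroup (GL (Fin 2) ℝ)) ((12 * m : ℕ) : ℤ),
      x * LQ Delta ^ m = LQ f := by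
  obtain ⟨m₀, _, _, ⟨f, rfl⟩, ⟨g, rfl⟩, hg0, hfg⟩ := hx
  choose! c hc hcP using fun i (hi : i ∈ Finset.Icc 1 n) => exists_isL1_of_poly (hm i hi)
  -- the forms `A = f Δ^m` and `B = g`
  have hfM : IsMN N ((12 * m₀ : ℕ) : ℤ) (⇑f : ℍ → ℂ) := ⟨f, rfl⟩
  have hgM : IsMN N ((12 * m₀ : ℕ) : ℤ) (⇑g : ℍ → ℂ) := ⟨g, rfl⟩
  have hDM : IsMN N ((m : ℤ) * 12) ((⇑Delta : ℍ → ℂ) ^ m) := (isL1_Delta.isMN N).pow m
  have hA : IsMN N (((12 * m : ℕ) : ℤ) + ((12 * m₀ : ℕ) : ℤ)) ((⇑f : ℍ → ℂ) * (⇑Delta : ℍ → ℂ) ^ m) :=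
    (hfM.mul hDM).cast (by push_cast; ring)
  obtain ⟨A, hA'⟩ := hA
  have hB : g ≠ 0 := fun h => hg0 (by rw [h]; rfl)
  have hAA : AnQ (⇑A : ℍ → ℂ) := by rw [hA']; exact hfM.anQ.mul hDM.anQ
  have hcA : ∀ i ∈ Finset.Icc 1 n, AnQ (c i) := fun i hi => (hc i hi).anQ
  have hxA : LQ A = x * LQ Delta ^ m * LQ g := by
    rw [hA', LQ_mul hfM.anQ hDM.anQ, LQ_pow isL1_Delta.anQ, ← hfg]
    ring
  have hrelAB : (⇑A : ℍ → ℂ) ^ n + ∑ i ∈ Finset.Icc 1 n,
      c i * (⇑A : ℍ → ℂ) ^ (n - i) * (⇑g : ℍ → ℂ) ^ i = 0 := by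
    have hwt : ∀ i ∈ Finset.Icc 1 n, IsMN N ((n : ℤ) * (((12 * m : ℕ) : ℤ) + ((12 * m₀ : ℕ) : ℤ)))
        (c i * (⇑A : ℍ → ℂ) ^ (n - i) * (⇑g : ℍ → ℂ) ^ i) := by
      intro i hi
      have h1 := (((hc i hi).isMN N).mul ((show IsMN N _ (⇑A : ℍ → ℂ) from ⟨A, rfl⟩).pow
        (n - i))).mul (hgM.pow i)
      refine h1.cast ?_
      rw [Finset.mem_Icc] at hi
      obtain ⟨e, rfl⟩ : ∃ e, n = i + e := ⟨n - i, by omega⟩
      rw [Nat.add_sub_cancel_left]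
      push_cast
      ring
    have hwt0 : IsMN N ((n : ℤ) * (((12 * m : ℕ) : ℤ) + ((12 * m₀ : ℕ) : ℤ)))
        ((⇑A : ℍ → ℂ) ^ n) := (show IsMN N _ (⇑A : ℍ → ℂ) from ⟨A, rfl⟩).pow n
    rw [← LQ_eq_zero_iff (hwt0.add (IsMN.sum hwt)), LQ_add hwt0.anQ (AnQ.sum fun i hi =>
      (hwt i hi).anQ), LQ_sum (fun i hi => (hwt i hi).anQ), LQ_pow hAA]
    have h2 : (LQ Delta ^ m * LQ g) ^ n * (x ^ n + ∑ i ∈ Finset.Icc 1 n,
        Polynomial.aeval (jqModC ℂ) (P i) * x ^ (n - i)) = 0 := by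
      rw [hrel, mul_zero]
    rw [← h2, mul_add, Finset.mul_sum, hxA]
    congr 1
    · ring
    · refine Finset.sum_congr rfl fun i hi => ?_
      rw [LQ_mul ((hcA i hi).mul (hAA.pow _)) (hgM.anQ.pow _), LQ_mul (hcA i hi) (hAA.pow _),
        LQ_pow hAA, LQ_pow hgM.anQ, hxA, hcP i hi]
      rw [Finset.mem_Icc] at hi
      have h4 : (LQ Delta ^ m * LQ g) ^ n = (LQ Delta ^ m * LQ g) ^ (n - i) *
          (LQ Delta ^ m * LQ g) ^ i := by
        rw [← pow_add]; congr 1; omega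
      rw [h4]
      ring
  obtain ⟨G, hG, -⟩ := exists_modularForm_of_relation (k := ((12 * m : ℕ) : ℤ))
    (l := ((12 * m₀ : ℕ) : ℤ)) A g hB (c := c) (n := n)
    (fun i hi => by
      obtain ⟨F, hF⟩ := (hc i hi).cast (l := ((12 * m : ℕ) : ℤ) * i) (by push_cast; ring)
      exact ⟨F, hF⟩) hrelAB
  refine ⟨G, ?_⟩
  have hGM : IsMN N ((12 * m : ℕ) : ℤ) (⇑G : ℍ → ℂ) := ⟨G, rfl⟩
  have h5 := congrArg LQ hG
  rw [LQ_mul hGM.anQ hgM.anQ, hxA] at h5
  exact (mul_right_cancel₀ (fun h => hg0 ((LQ_eq_zero_iff hgM).1 h)) h5).symm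

/-- **D4, functions to forms**: a ratio of forms which is integral over `ℂ[j]` is of the form
`f / Δ^m`. -/
theorem exists_form_of_isIntegral (hx : IsRatio N x) (hint : IsIntegral Cj x) :
    ∃ (m : ℕ) (f : ModularForm (Gamma0 N : Subgroup (GL (Fin 2) ℝ)) ((12 * m : ℕ) : ℤ)),
      x * LQ Delta ^ m = LQ f := by
  obtain ⟨n, r, hn, hrel⟩ := relation_of_isIntegral hint
  -- polynomials
  have hr : ∀ i, ∃ P : ℂ[X], Polynomial.aeval (jqModC ℂ) P = (r i : LaurentSeries ℂ) := by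
    intro i
    have h : (r i : LaurentSeries ℂ) ∈ Algebra.adjoin ℂ {jqModC ℂ} := (r i).2
    rw [Algebra.adjoin_singleton_eq_range_aeval] at h
    exact h
  choose P hP using hr
  obtain ⟨m, hm⟩ : ∃ m : ℕ, ∀ i ∈ Finset.Icc 1 n, (P i).natDegree ≤ m * i := by
    refine ⟨∑ i ∈ Finset.Icc 1 n, (P i).natDegree, fun i hi => ?_⟩
    have h1 : (P i).natDegree ≤ ∑ i ∈ Finset.Icc 1 n, (P i).natDegree :=
      Finset.single_le_sum (f := fun i => (P i).natDegree) (fun _ _ => Nat.zero_le _) hi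
    refine h1.trans (Nat.le_mul_of_pos_right _ ?_)
    rw [Finset.mem_Icc] at hi
    omega
  refine ⟨m, exists_form_of_poly_relation hx hm ?_⟩
  rw [← hrel]
  congr 1
  exact Finset.sum_congr rfl fun i _ => by rw [hP i]; rfl

/-- **D4**: for `x` in the function field, `x` is integral over `ℂ[j]` iff `x Δ^m` is a modular
form of weight `12 m` on `Γ₀(N)` for some `m`. -/
theorem isIntegral_iff (hx : x ∈ modularFunctionFieldFullC ℂ N) :
    IsIntegral Cj x ↔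
      ∃ (m : ℕ) (f : ModularForm (Gamma0 N : Subgroup (GL (Fin 2) ℝ)) ((12 * m : ℕ) : ℤ)),
        x * LQ Delta ^ m = LQ f :=
  ⟨exists_form_of_isIntegral (isRatio_of_mem hx), fun ⟨_, f, hf⟩ => isIntegral_of_form ⟨f, rfl⟩ hf⟩

end Fermat.Agent.MFF
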