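import Fermat.Agent.IntStr.Main

/-!
# `Aut(ℂ)`-stability and integral structure for spaces of modular forms `M_k(Γ₀(N))`
-/

set_option autoImplicit false

open UpperHalfPlane ModularForm MatrixGroups CongruenceSubgroup
open Fermat.Agent.IntStr
open scoped Manifold

noncomputable section

namespace Fermat.Agent.MFF

variable {N : ℕ} [NeZero N] {k l : ℤ} {f g : ℍ → ℂ}

/-- conjugates of level one forms -/
theorem IsL1.conj (σ : ℂ →+* ℂ) (hf : IsL1 k f) :
    ∃ g, IsL1 k g ∧ qExpansion 1 g = PowerSeries.map σ (qExpansion 1 f) := by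
  have : IsL1 k f ∧ ∃ g, IsL1 k g ∧
      qExpansion 1 g = PowerSeries.map σ (qExpansion 1 f) := by
    refine Submodule.span_induction (p := fun x _ => IsL1 k x ∧
      ∃ g, IsL1 k g ∧ qExpansion 1 g = PowerSeries.map σ (qExpansion 1 x)) ?_ ?_ ?_ ?_
      (isL1_span hf)
    · intro x hx
      refine ⟨hx.1, x, hx.1, ?_⟩
      ext n
      obtain ⟨m, hm⟩ := hx.2 n
      rw [PowerSeries.coeff_map, hm]
      simp
    · refine ⟨IsL1.zero k, 0, IsL1.zero k, ?_⟩
      rw [UpperHalfPlane.qExpansion_zero, map_zero]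
    · rintro x y _ _ ⟨hx, x', hx', ex⟩ ⟨hy, y', hy', ey⟩
      refine ⟨hx.add hy, x' + y', hx'.add hy', ?_⟩
      rw [qExp_add hx.anQ hy.anQ, qExp_add hx'.anQ hy'.anQ, ex, ey, map_add]
    · rintro c x _ ⟨hx, x', hx', ex⟩
      refine ⟨hx.smul c, σ c • x', hx'.smul _, ?_⟩
      rw [UpperHalfPlane.qExpansion_smul hx.anQ, UpperHalfPlane.qExpansion_smul hx'.anQ, ex]
      ext n
      simp
  exact this.2

/-- The relations satisfied by a modular form `f` on `Γ₀(N)` of weight `k`: integral over level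
one forms, and a quotient of forms in the span of integral forms. -/
structure HasRelM (N : ℕ) (k : ℤ) (f : ℍ → ℂ) : Prop where
  monic : ∃ (n : ℕ) (c : ℕ → ℍ → ℂ), 0 < n ∧ (∀ i ∈ Finset.Icc 1 n, IsL1 (k * i) (c i)) ∧
    f ^ n + ∑ i ∈ Finset.Icc 1 n, c i * f ^ (n - i) = 0
  quot : ∃ (l : ℤ) (A B : ℍ → ℂ), A ∈ VN N (k + l) ∧ B ∈ VN N l ∧ B ≠ 0 ∧ B * f = A

theorem hasRelM (N : ℕ) [NeZero N] (k : ℤ)
    (f : ModularForm (Gamma0 N : Subgroup (GL (Fin 2) ℝ)) k) : HasRelM N k f := by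
  refine ⟨exists_monic_relation_mod f, ?_⟩
  obtain ⟨m, l, D, hD, hD0, h⟩ := lagrange_universal N
  obtain ⟨a, ha, hf⟩ := h k f
  refine ⟨l, _, D, ?_, hD.mem_VN N, hD0, hf⟩
  refine Submodule.sum_mem _ fun i hi => ?_
  rw [Finset.mem_range] at hi
  exact VN.cast (VN.mul ((ha i hi).mem_VN N) (VN.pow (theta_mem_VN N) i)) (by ring)

/-- **`Aut(ℂ)`-stability** of the space of modular forms. -/
theorem exists_conj_mod (σ : ℂ →+* ℂ) (hf : IsMN N k f) :
    ∃ g, IsMN N k g ∧ qExpansion 1 g = PowerSeries.map σ (qExpansion 1 f) := by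
  have hrel : HasRelM N k f := by obtain ⟨F, rfl⟩ := hf; exact hasRelM N k F
  obtain ⟨n, c, hn, hc, hmonic⟩ := hrel.monic
  obtain ⟨l, A, B, hA, hB, hB0, hBf⟩ := hrel.quot
  -- homogeneous relation
  have hhom : A ^ n + ∑ i ∈ Finset.Icc 1 n, c i * A ^ (n - i) * B ^ i = 0 := by
    have h1 : B ^ n * (f ^ n + ∑ i ∈ Finset.Icc 1 n, c i * f ^ (n - i)) = 0 := by
      rw [hmonic, mul_zero]
    rw [← h1, ← hBf, mul_add, mul_pow, Finset.mul_sum]
    congr 1
    refine Finset.sum_congr rfl fun i hi => ?_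
    rw [Finset.mem_Icc] at hi
    have h5 : B ^ n = B ^ (n - i) * B ^ i := by rw [← pow_add]; congr 1; omega
    rw [h5]
    ring
  -- conjugates
  obtain ⟨A', hA', eA⟩ := VN.conj σ hA
  obtain ⟨B', hB', eB⟩ := VN.conj σ hB
  choose! c' hc' ec using fun i (hi : i ∈ Finset.Icc 1 n) => IsL1.conj σ (hc i hi)
  have hq := qExp_relation (n := n) (c := c) (VN.isMN hA).anQ (VN.isMN hB).anQ
    (fun i hi => (hc i hi).anQ)
  rw [hhom, UpperHalfPlane.qExpansion_zero] at hq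
  have hq' := qExp_relation (n := n) (c := c') (VN.isMN hA').anQ (VN.isMN hB').anQ
    (fun i hi => (hc' i hi).anQ)
  have hmap := congrArg (PowerSeries.map σ) hq
  rw [map_zero, map_add, map_sum, map_pow, ← eA] at hmap
  have hsum : ∑ i ∈ Finset.Icc 1 n, (PowerSeries.map σ) (qExpansion 1 (c i) *
      qExpansion 1 A ^ (n - i) * qExpansion 1 B ^ i) = ∑ i ∈ Finset.Icc 1 n,
        qExpansion 1 (c' i) * (qExpansion 1 A') ^ (n - i) * (qExpansion 1 B') ^ i := by
    refine Finset.sum_congr rfl fun i hi => ?_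
    rw [map_mul, map_mul, map_pow, map_pow, ← eA, ← eB, ← ec i hi]
  rw [hsum, ← hq'] at hmap
  -- the conjugate relation as functions
  have hM : IsMN N (n * (k + l)) (A' ^ n + ∑ i ∈ Finset.Icc 1 n, c' i * A' ^ (n - i) * B' ^ i) := by
    refine ((VN.isMN hA').pow n).add (IsMN.sum fun i hi => ?_)
    refine (((((hc' i hi).isMN N).mul ((VN.isMN hA').pow (n - i))).mul
      ((VN.isMN hB').pow i))).cast ?_
    rw [Finset.mem_Icc] at hi
    have : ((n - i : ℕ) : ℤ) = (n : ℤ) - i := by omega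
    rw [this]
    ring
  have hrel' := hM.eq_zero_of_qExp hmap.symm
  obtain ⟨FA, hFA⟩ := VN.isMN hA'
  obtain ⟨FB, hFB⟩ := VN.isMN hB'
  have hqB : qExpansion 1 B ≠ 0 := fun h => hB0 ((VN.isMN hB).eq_zero_of_qExp h)
  have hqB' : qExpansion 1 B' ≠ 0 := by
    rw [eB]
    intro h
    apply hqB
    have : Function.Injective (PowerSeries.map σ) := PowerSeries.map_injective _ σ.injective
    exact this (by rw [h, map_zero])
  have hFB0 : FB ≠ 0 := by
    rintro rfl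
    apply hqB'
    rw [← hFB]
    exact UpperHalfPlane.qExpansion_zero 1
  obtain ⟨G, hG, -⟩ := exists_modularForm_of_relation
    (𝒢 := (Gamma0 N : Subgroup (GL (Fin 2) ℝ)))
    FA FB hFB0 (n := n) (c := c') hc' (by rw [hFA, hFB]; exact hrel')
  refine ⟨G, ⟨G, rfl⟩, ?_⟩
  have hGan : AnQ G := (show IsMN N k (⇑G : ℍ → ℂ) from ⟨G, rfl⟩).anQ
  rw [hFA, hFB] at hG
  have h1 : qExpansion 1 (G : ℍ → ℂ) * qExpansion 1 B' = qExpansion 1 A' := by
    rw [← qExp_mul hGan (VN.isMN hB').anQ, hG]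
  have h2 : qExpansion 1 B * qExpansion 1 f = qExpansion 1 A := by
    rw [← qExp_mul (VN.isMN hB).anQ hf.anQ, hBf]
  have h3 : qExpansion 1 (G : ℍ → ℂ) * qExpansion 1 B' =
      PowerSeries.map σ (qExpansion 1 f) * qExpansion 1 B' := by
    rw [h1, eA, ← h2, map_mul, eB, mul_comm]
  exact mul_right_cancel₀ hqB' h3

/-! ### The `q`-expansion map and finite-dimensionality -/

/-- the `q`-expansion as a linear map to sequences -/
def qSeqM (N : ℕ) (k : ℤ) :
    ModularForm (Gamma0 N : Subgroup (GL (Fin 2) ℝ)) k →ₗ[ℂ] (ℕ → ℂ) where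
  toFun f n := (qExpansion 1 (f : ℍ → ℂ)).coeff n
  map_add' f g := by
    funext n
    have h : (⇑(f + g) : ℍ → ℂ) = ⇑f + ⇑g := rfl
    rw [h, qExp_add (show IsMN N k (⇑f : ℍ → ℂ) from ⟨f, rfl⟩).anQ
      (show IsMN N k (⇑g : ℍ → ℂ) from ⟨g, rfl⟩).anQ]
    simp
  map_smul' c f := by
    funext n
    have h : (⇑(c • f) : ℍ → ℂ) = c • ⇑f := rfl
    rw [h, UpperHalfPlane.qExpansion_smul (show IsMN N k (⇑f : ℍ → ℂ) from ⟨f, rfl⟩).anQ]
    simp

omit [NeZero N] in
@[simp] theorem qSeqM_apply (f : ModularForm (Gamma0 N : Subgroup (GL (Fin 2) ℝ)) k) (n : ℕ) :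
    qSeqM N k f n = (qExpansion 1 (f : ℍ → ℂ)).coeff n := rfl

omit [NeZero N] in
theorem qSeqM_injective : Function.Injective (qSeqM N k) := by
  refine (injective_iff_map_eq_zero _).mpr fun f hf => ?_
  have h : (⇑f : ℍ → ℂ) = 0 := by
    refine IsMN.eq_zero_of_qExp (show IsMN N k (⇑f : ℍ → ℂ) from ⟨f, rfl⟩) ?_
    ext n
    exact congrFun hf n
  exact DFunLike.coe_injective h

/-- Spaces of modular forms on `Γ₀(N)` are finite-dimensional. -/
theorem finiteDimensional_modularForm (N : ℕ) [NeZero N] (k : ℤ) :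
    FiniteDimensional ℂ (ModularForm (Gamma0 N : Subgroup (GL (Fin 2) ℝ)) k) := by
  let B : ℕ := (k * (Gamma0 N).index).toNat / 12
  let T : ModularForm (Gamma0 N : Subgroup (GL (Fin 2) ℝ)) k →ₗ[ℂ] (Fin (B + 1) → ℂ) :=
    (LinearMap.funLeft ℂ ℂ (fun i : Fin (B + 1) => (i : ℕ))).comp (qSeqM N k)
  refine FiniteDimensional.of_injective T ?_
  refine (injective_iff_map_eq_zero _).mpr fun f hf => ?_
  refine ModularForm.sturm_bound_Gamma0 N _ fun n hn => ?_
  exact congrFun hf ⟨n, Nat.lt_succ_of_le hn⟩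

omit [NeZero N] in
/-- A form satisfying the relations with rational `q`-expansion has bounded denominators. -/
theorem exists_zsmul_integral_mod (f : ModularForm (Gamma0 N : Subgroup (GL (Fin 2) ℝ)) k)
    (hrel : HasRelM N k f) (hrat : ∀ n, ∃ r : ℚ, (qExpansion 1 (f : ℍ → ℂ)).coeff n = (r : ℂ)) :
    ∃ D : ℤ, D ≠ 0 ∧ ∀ n, ∃ m : ℤ, (qExpansion 1 (⇑((D : ℂ) • f) : ℍ → ℂ)).coeff n = (m : ℂ) := by
  obtain ⟨n, c, hn, hc, hmonic⟩ := hrel.monic
  obtain ⟨l, A, B, hA, hB, hB0, hBf⟩ := hrel.quot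
  choose r hr using hrat
  let F : PowerSeries ℚ := PowerSeries.mk r
  have hfM : IsMN N k f := ⟨f, rfl⟩
  have hF : PowerSeries.map (algebraMap ℚ ℂ) F = qExpansion 1 (f : ℍ → ℂ) := by
    ext j
    rw [PowerSeries.coeff_map, hr]
    simp [F]
  have hq := qExp_relation (n := n) (c := c) (A := (f : ℍ → ℂ)) (B := 1) hfM.anQ AnQ.one
    (fun i hi => (hc i hi).anQ)
  simp only [one_pow, mul_one] at hq
  rw [hmonic, UpperHalfPlane.qExpansion_zero] at hq
  simp only [qExpansion_one, one_pow, mul_one] at hq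
  obtain ⟨D, g, hD, hg⟩ := exists_int_of_tame_relations (f := F) (A := qExpansion 1 A)
    (B := qExpansion 1 B) (VN.tame hA) (VN.tame hB)
    (fun h => hB0 ((VN.isMN hB).eq_zero_of_qExp h))
    (by rw [hF, ← qExp_mul (VN.isMN hB).anQ hfM.anQ, hBf]) (n := n)
    (c := fun i => qExpansion 1 (c i))
    (fun i hi => VN.tame ((hc i hi).mem_VN N)) (by rw [hF]; exact hq.symm)
  refine ⟨D, hD, fun j => ⟨g.coeff j, ?_⟩⟩
  have h1 : (⇑((D : ℂ) • f) : ℍ → ℂ) = (D : ℂ) • ⇑f := rfl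
  rw [h1, UpperHalfPlane.qExpansion_smul hfM.anQ, PowerSeries.coeff_smul, hr]
  have h2 := congrArg (PowerSeries.coeff j) hg
  rw [PowerSeries.coeff_map] at h2
  have h4 : PowerSeries.coeff j ((D : PowerSeries ℚ) * F) = (D : ℚ) * r j := by
    have : (D : PowerSeries ℚ) = PowerSeries.C (D : ℚ) := by simp
    rw [this, PowerSeries.coeff_C_mul]
    simp [F]
  rw [h4] at h2
  have h5 := congrArg (fun x : ℚ => (x : ℂ)) h2
  simp only [eq_intCast, Rat.cast_intCast, Rat.cast_mul] at h5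
  rw [smul_eq_mul, ← h5]

/-- modular forms with integral `q`-expansion -/
def intForms (N : ℕ) (k : ℤ) : Set (ModularForm (Gamma0 N : Subgroup (GL (Fin 2) ℝ)) k) :=
  {f | IntQ (⇑f : ℍ → ℂ)}

/-- **The integral structure** on spaces of modular forms. -/
theorem span_intForms (N : ℕ) [NeZero N] (k : ℤ) :
    Submodule.span ℂ (intForms N k) = ⊤ := by
  haveI := finiteDimensional_modularForm N k
  let V : Submodule ℂ (ℕ → ℂ) := LinearMap.range (qSeqM N k)
  have hV : ∀ σ : ℂ ≃+* ℂ, ∀ v ∈ V, (fun n => σ (v n)) ∈ V := by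
    rintro σ _ ⟨f, rfl⟩
    obtain ⟨g, ⟨G, rfl⟩, hg⟩ := exists_conj_mod (N := N) (k := k) (σ : ℂ →+* ℂ) ⟨f, rfl⟩
    refine ⟨G, ?_⟩
    funext n
    rw [qSeqM_apply, hg, PowerSeries.coeff_map]
    rfl
  have hspan := span_rational_of_stable V hV
  rw [eq_top_iff]
  rintro f -
  have h1 : qSeqM N k f ∈ V := ⟨f, rfl⟩
  rw [← hspan] at h1
  have h2 : Submodule.span ℂ {v | v ∈ V ∧ ∀ n, ∃ r : ℚ, v n = (r : ℂ)} ≤
      (Submodule.span ℂ (intForms N k)).map (qSeqM N k) := by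
    rw [Submodule.span_le]
    rintro _ ⟨⟨g, rfl⟩, hg⟩
    refine ⟨g, ?_, rfl⟩
    obtain ⟨D, hD, hDg⟩ := exists_zsmul_integral_mod g (hasRelM N k g) hg
    have h3 : g = (D : ℂ)⁻¹ • ((D : ℂ) • g) := by
      rw [smul_smul, inv_mul_cancel₀ (by exact_mod_cast hD), one_smul]
    rw [h3]
    refine Submodule.smul_mem _ _ (Submodule.subset_span ?_)
    exact hDg
  obtain ⟨g, hg, hgf⟩ := h2 h1
  rw [← qSeqM_injective hgf]
  exact hg

/-- Every form is in the span `VN` of forms with integral `q`-expansion. -/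
theorem IsMN.mem_VN (hf : IsMN N k f) : f ∈ VN N k := by
  obtain ⟨F, rfl⟩ := hf
  have h : F ∈ Submodule.span ℂ (intForms N k) := by rw [span_intForms]; trivial
  refine Submodule.span_induction (p := fun (x : ModularForm _ k) _ => (⇑x : ℍ → ℂ) ∈ VN N k)
    ?_ ?_ ?_ ?_ h
  · intro x hx
    exact Submodule.subset_span ⟨⟨x, rfl⟩, hx⟩
  · exact zero_mem _
  · intro x y _ _ hx hy
    exact add_mem hx hy
  · intro c x _ hx
    exact Submodule.smul_mem _ c hx

end Fermat.Agent.MFF
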